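import Mathlib
import Fermat.Prelude.Def_ModularCurve_ReductionModL
import Fermat.Prelude.Def_FLTPrelim_Ramification
import Fermat.Agent.S18.H602.Descent
import Fermat.Agent.S18.H602.DVR
import Fermat.Agent.S18.H602.BaseChange

/-!
# S37 / INT-Q (helper280): integral elements of `ℚ̄(X₀(N))` have `A`-integral `q`-expansions

`A` a valuation subring of `ℚ̄` over a prime `ℓ`.  If `f ∈ F = modularFunctionFieldBar N ⊆ ℚ̄((q))`
is integral over the ring of `A`-integral `q`-series lying in `F` (e.g. over `A[j]`, `A[j⁻¹]`,
`A[t₂]`, …), then `f` itself is an `A`-integral `q`-series: `f = coeffMap A.subtype y`,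
`y ∈ A((q))`.  UNCONDITIONAL (no completion, no Weierstrass preparation, no hypothesis).

Proof.
1. (`isIntegrallyClosed_laurentSeries`) For a principal ideal domain `R`, `R⟦X⟧` is a UFD
   (Mathlib), hence integrally closed, hence so is its localisation `R((X))`.
2. (`exists_coeffMap_eq_of_isIntegral`) Hence a fraction `a / b` of elements of `R((q))` inside
   `E((q))` (`E ⊇ R` a field) which is integral over `R((q))` lies in `R((q))`.
3. (`laurentBaseChange_le_fracSubfield`) every element of `E(j(q^d) : d ∣ N)` is such a fraction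
   (the generators have integer coefficients), for `R` a valuation subring of `E`.
4. (`intQ`) descent to a number field `E ⊆ ℚ̄` (helper602's `S18/H602`): `f` and the finitely many
   coefficients of an integrality equation are defined over `E`; `R = A ∩ E` is a DVR.
-/

set_option autoImplicit false
set_option linter.style.haveILetI false
set_option linter.unusedSectionVars false

noncomputable section

namespace Fermat.Agent.S37.H280.IntQ

open ModularCurve HahnSeries IntermediateField Polynomial
open Fermat.Agent.S18.H602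

local notation "Q̄" => AlgebraicClosure ℚ

/-! ## 1. `R((X))` is integrally closed for a PID `R` -/

section Normal

variable (R : Type*) [CommRing R] [IsDomain R] [IsPrincipalIdealRing R]

/-- Laurent series over a principal ideal domain form an integrally closed domain. -/
theorem isIntegrallyClosed_laurentSeries : IsIntegrallyClosed (LaurentSeries R) := by
  haveI : IsIntegrallyClosed (PowerSeries R) := UniqueFactorizationMonoid.instIsIntegrallyClosed
  exact isIntegrallyClosed_of_isLocalization (R := PowerSeries R) (S := LaurentSeries R)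
    (Submonoid.powers (PowerSeries.X : PowerSeries R))
    (powers_le_nonZeroDivisors_of_noZeroDivisors PowerSeries.X_ne_zero)

end Normal

section Frac

variable {R E : Type*} [CommRing R] [IsDomain R] [Field E] (φ : R →+* E)

/-- A fraction of two elements of `R((q))` inside `E((q))` which is integral over `R((q))`
lies in `R((q))`, for `R` a principal ideal domain. -/
theorem exists_coeffMap_eq_of_isIntegral [IsPrincipalIdealRing R] (hφ : Function.Injective φ)
    (f : LaurentSeries E) (a b : LaurentSeries R) (hb : b ≠ 0)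
    (hab : f * coeffMap φ b = coeffMap φ a)
    (p : Polynomial (LaurentSeries R)) (hp : p.Monic) (hpf : p.eval₂ (coeffMap φ) f = 0) :
    ∃ y : LaurentSeries R, coeffMap φ y = f := by
  haveI := isIntegrallyClosed_laurentSeries R
  have hinj : Function.Injective (coeffMap φ) := coeffMap_injective φ hφ
  letI : Algebra (LaurentSeries R) (LaurentSeries E) := (coeffMap φ).toAlgebra
  have halg : ∀ x : LaurentSeries R, algebraMap (LaurentSeries R) (LaurentSeries E) x
      = coeffMap φ x := fun _ => rfl
  haveI : FaithfulSMul (LaurentSeries R) (LaurentSeries E) :=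
    (faithfulSMul_iff_algebraMap_injective _ _).mpr hinj
  let K' := FractionRing (LaurentSeries R)
  let ψ : K' →ₐ[LaurentSeries R] LaurentSeries E :=
    IsFractionRing.liftAlgHom (K := K') (g := Algebra.ofId (LaurentSeries R) (LaurentSeries E))
      (by exact hinj)
  have hψ : Function.Injective ψ := ψ.toRingHom.injective
  have hb' : algebraMap (LaurentSeries R) K' b ≠ 0 := by
    rw [Ne, map_eq_zero_iff _ (IsFractionRing.injective (LaurentSeries R) K')]
    exact hb
  have hbE : coeffMap φ b ≠ 0 := by
    rw [Ne, map_eq_zero_iff _ hinj]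
    exact hb
  set x' : K' := algebraMap (LaurentSeries R) K' a / algebraMap (LaurentSeries R) K' b with hx'
  have hψx : ψ x' = f := by
    rw [hx', map_div₀, AlgHom.commutes, AlgHom.commutes, halg, halg, ← hab,
      mul_div_assoc, div_self hbE, mul_one]
  have hint : IsIntegral (LaurentSeries R) x' := by
    rw [← isIntegral_algHom_iff ψ hψ, hψx]
    exact ⟨p, hp, hpf⟩
  obtain ⟨y, hy⟩ := IsIntegrallyClosed.isIntegral_iff.mp hint
  refine ⟨y, ?_⟩
  rw [← hψx, ← hy, AlgHom.commutes]
  rfl

variable (hφ : Function.Injective φ)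

/-- The subfield of `E((q))` of fractions of elements of `R((q))`. -/
def fracSubfield (hφ : Function.Injective φ) : Subfield (LaurentSeries E) where
  carrier := {x | ∃ a b : LaurentSeries R, b ≠ 0 ∧ x * coeffMap φ b = coeffMap φ a}
  mul_mem' := by
    rintro x x' ⟨a, b, hb, h⟩ ⟨a', b', hb', h'⟩
    refine ⟨a * a', b * b', mul_ne_zero hb hb', ?_⟩
    rw [map_mul, map_mul, ← h, ← h']
    ring
  one_mem' := ⟨1, 1, one_ne_zero, by simp⟩
  add_mem' := by
    rintro x x' ⟨a, b, hb, h⟩ ⟨a', b', hb', h'⟩
    refine ⟨a * b' + a' * b, b * b', mul_ne_zero hb hb', ?_⟩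
    rw [map_add, map_mul, map_mul, map_mul, ← h, ← h']
    ring
  zero_mem' := ⟨0, 1, one_ne_zero, by simp⟩
  neg_mem' := by
    rintro x ⟨a, b, hb, h⟩
    exact ⟨-a, b, hb, by rw [map_neg, ← h]; ring⟩
  inv_mem' := by
    rintro x ⟨a, b, hb, h⟩
    have hinj : Function.Injective (coeffMap φ) := coeffMap_injective φ hφ
    by_cases ha : a = 0
    · refine ⟨0, 1, one_ne_zero, ?_⟩
      have hbE : coeffMap φ b ≠ 0 := by
        rw [Ne, map_eq_zero_iff _ hinj]; exact hb
      have hx0 : x = 0 := by
        rw [ha, map_zero] at h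
        exact (mul_eq_zero.mp h).resolve_right hbE
      simp [hx0]
    · refine ⟨b, a, ha, ?_⟩
      have haE : coeffMap φ a ≠ 0 := by
        rw [Ne, map_eq_zero_iff _ hinj]; exact ha
      have hx0 : x ≠ 0 := by
        rintro rfl
        rw [zero_mul] at h
        exact haE h.symm
      rw [← h]
      field_simp

theorem mem_fracSubfield {x : LaurentSeries E} :
    x ∈ fracSubfield φ hφ ↔
      ∃ a b : LaurentSeries R, b ≠ 0 ∧ x * coeffMap φ b = coeffMap φ a := Iff.rfl

theorem coeffMap_mem_fracSubfield (a : LaurentSeries R) : coeffMap φ a ∈ fracSubfield φ hφ :=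
  ⟨a, 1, one_ne_zero, by simp⟩

end Frac

/-! ## 3. Elements of `E(j(q^d) : d ∣ N)` are fractions of integral series -/

section BaseChange

variable {E : Type*} [Field E] [Algebra ℚ E] (R : ValuationSubring E) (N : ℕ) [NeZero N]

theorem single_mem_fracSubfield (c : E) :
    (HahnSeries.single (0 : ℤ) c : LaurentSeries E) ∈
      fracSubfield R.subtype Subtype.val_injective := by
  rcases R.mem_or_inv_mem c with hc | hc
  · have := coeffMap_mem_fracSubfield R.subtype Subtype.val_injective
      (HahnSeries.single (0 : ℤ) (⟨c, hc⟩ : R))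
    rwa [coeffMap_single] at this
  · by_cases hc0 : c = 0
    · rw [hc0, HahnSeries.single_eq_zero]
      exact zero_mem _
    have h1 := coeffMap_mem_fracSubfield R.subtype Subtype.val_injective
      (HahnSeries.single (0 : ℤ) (⟨c⁻¹, hc⟩ : R))
    rw [coeffMap_single] at h1
    have h2 := inv_mem h1
    have h3 : ((HahnSeries.single (0 : ℤ) (c⁻¹ : E) : LaurentSeries E))⁻¹
        = HahnSeries.single (0 : ℤ) c := by
      apply inv_eq_of_mul_eq_one_left
      rw [HahnSeries.single_mul_single, add_zero, mul_inv_cancel₀ hc0]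
      rfl
    change ((HahnSeries.single (0 : ℤ) (c⁻¹ : E) : LaurentSeries E))⁻¹ ∈ _ at h2
    rwa [h3] at h2

/-- Every element of `E(j(q^d) : d ∣ N)` is a fraction of two series over the valuation
subring `R` of `E`. -/
theorem laurentBaseChange_le_fracSubfield :
    (laurentBaseChange E (modularFunctionFieldFull N)).toSubfield ≤
      fracSubfield R.subtype Subtype.val_injective := by
  intro x hx
  have hx' : x ∈ laurentBaseChange E (modularFunctionFieldFull N) := hx
  rw [mem_laurentBaseChange_iff] at hx'
  refine Subfield.closure_le.mpr ?_ hx'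
  rintro y (⟨c, rfl⟩ | ⟨z, hz, rfl⟩)
  · rw [algebraMap_laurentSeries_eq_single]
    exact single_mem_fracSubfield R c
  · -- `z ∈ ℚ(j(q^d))`
    have hz' : z ∈ (fracSubfield R.subtype Subtype.val_injective).comap (coeffEmb E) := by
      have hz2 : z ∈ Subfield.closure
          (Set.range (algebraMap ℚ (LaurentSeries ℚ)) ∪ divisorExpansions N) := hz
      refine Subfield.closure_le.mpr ?_ hz2
      rintro w (⟨c, rfl⟩ | ⟨d, hd, hdN, rfl⟩)
      · rw [SetLike.mem_coe, Subfield.mem_comap]
        have : coeffEmb E (algebraMap ℚ (LaurentSeries ℚ) c)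
            = HahnSeries.single (0 : ℤ) (algebraMap ℚ E c) := by
          rw [coeffEmb, algebraMap_laurentSeries_eq_single, coeffMap_single]
        rw [this]
        exact single_mem_fracSubfield R _
      · rw [SetLike.mem_coe, Subfield.mem_comap]
        haveI := hd
        rw [coeffEmb_qExpand_jq]
        have h1 : qExpand E d (jqModC E) = coeffMap R.subtype (jqNModC R d) := by
          rw [coeffMap_jqNModC]
          rfl
        rw [h1]
        exact coeffMap_mem_fracSubfield _ _ _
    exact hz'

end BaseChange

/-! ## 4. Descent and the main statement -/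

section Main

variable (A : ValuationSubring Q̄)

/-- Finitely many elements of `laurentBaseChange Q̄ F₀` are defined over a common finite
extension of `ℚ`. -/
theorem exists_finite_descent_finset {F₀ : IntermediateField ℚ (LaurentSeries ℚ)}
    {ι : Type*} (s : Finset ι) (x : ι → LaurentSeries Q̄)
    (hx : ∀ i ∈ s, x i ∈ laurentBaseChange Q̄ F₀) :
    ∃ E : IntermediateField ℚ Q̄, FiniteDimensional ℚ E ∧ ∀ i ∈ s, DescendsTo F₀ E (x i) := by
  classical
  induction s using Finset.induction_on with
  | empty => exact ⟨⊥, inferInstance, fun i hi => by simp at hi⟩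
  | insert a s ha ih =>
    obtain ⟨E₁, hE₁, h₁⟩ := ih fun i hi => hx i (Finset.mem_insert_of_mem hi)
    obtain ⟨E₂, hE₂, h₂⟩ := exists_finite_descent (hx a (Finset.mem_insert_self a s))
    refine ⟨E₁ ⊔ E₂, IntermediateField.finiteDimensional_sup E₁ E₂, fun i hi => ?_⟩
    rcases Finset.mem_insert.mp hi with rfl | hi
    · exact h₂.mono le_sup_right
    · exact (h₁ i hi).mono le_sup_left

/-- **INT-Q.**  Let `A` be a valuation subring of `ℚ̄` over `ℓ`.  An element `f` of
`ℚ̄(X₀(N)) ⊆ ℚ̄((q))` which is a root of a monic polynomial whose coefficients are `A`-integral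
`q`-series lying in `ℚ̄(X₀(N))` is itself an `A`-integral `q`-series. -/
theorem intQ {ℓ : ℕ} (hℓ : ℓ ≠ 0) (hA : A.LiesOverPrime ℓ) (N : ℕ) [NeZero N]
    (f : LaurentSeries Q̄) (hf : f ∈ modularFunctionFieldBar N)
    (p : Polynomial (LaurentSeries A)) (hp : p.Monic)
    (hcoef : ∀ i, coeffMap A.subtype (p.coeff i) ∈ modularFunctionFieldBar N)
    (hpf : p.eval₂ (coeffMap A.subtype) f = 0) :
    ∃ y : LaurentSeries A, coeffMap A.subtype y = f := by
  classical
  -- a common field of definition
  obtain ⟨E, hE, hdesc⟩ := exists_finite_descent_finset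
    (F₀ := modularFunctionFieldFull N) (Finset.univ : Finset (Option (Fin (p.natDegree + 1))))
    (fun o => match o with
      | none => f
      | some i => coeffMap A.subtype (p.coeff i))
    (fun o _ => by
      cases o with
      | none => exact hf
      | some i => exact hcoef i)
  have hfE : DescendsTo (modularFunctionFieldFull N) E f := hdesc none (Finset.mem_univ _)
  have hcE : ∀ i : ℕ, ∃ V : LaurentSeries (RE A E), coeffMap (toA A E) V = p.coeff i := by
    intro i
    by_cases hi : i < p.natDegree + 1
    · have h := hdesc (some ⟨i, hi⟩) (Finset.mem_univ _)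
      obtain ⟨V, -, hV⟩ := exists_series_descent (p.coeff i) h
      exact ⟨V, hV⟩
    · refine ⟨0, ?_⟩
      rw [map_zero, Polynomial.coeff_eq_zero_of_natDegree_lt (by omega)]
  -- the DVR
  haveI : IsDiscreteValuationRing (RE A E) := isDiscreteValuationRing_RE A E hℓ hA
  -- lift the polynomial
  have hlift : p ∈ Polynomial.lifts (coeffMap (toA A E)) := by
    rw [Polynomial.lifts_iff_coeff_lifts]
    intro i
    obtain ⟨V, hV⟩ := hcE i
    exact ⟨V, hV⟩
  obtain ⟨pE, hpE, -, hpEm⟩ := Polynomial.lifts_and_natDegree_eq_and_monic hlift hp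
  obtain ⟨fE, hfEmem, hfEf⟩ := hfE
  have hinjE : Function.Injective (coeffMap (algebraMap E Q̄)) :=
    coeffMap_injective _ (algebraMap E Q̄).injective
  -- the integrality equation over `R_E((q))`
  have heq : pE.eval₂ (coeffMap (RE A E).subtype) fE = 0 := by
    apply hinjE
    rw [map_zero, Polynomial.hom_eval₂, hfEf]
    have hcomp : (coeffMap (algebraMap E Q̄)).comp (coeffMap (RE A E).subtype)
        = (coeffMap A.subtype).comp (coeffMap (toA A E)) := by
      ext V : 1
      simp only [RingHom.comp_apply]
      rw [coeffMap_coeffMap, coeffMap_coeffMap, subtype_comp_toA]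
    rw [hcomp, ← Polynomial.eval₂_map, hpE]
    exact hpf
  -- `fE` is a fraction
  obtain ⟨a, b, hb, hab⟩ := laurentBaseChange_le_fracSubfield (RE A E) N hfEmem
  obtain ⟨yE, hyE⟩ := exists_coeffMap_eq_of_isIntegral (RE A E).subtype Subtype.val_injective
    fE a b hb hab pE hpEm heq
  refine ⟨coeffMap (toA A E) yE, ?_⟩
  rw [coeffMap_coeffMap, subtype_comp_toA, ← coeffMap_coeffMap, hyE, hfEf]

end Main

end Fermat.Agent.S37.H280.IntQ
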