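import Fermat.Agent.S37.H280.IntQ
import Fermat.Agent.S37.Core.Geo
import Fermat.Agent.S37.H448.Gen

/-!
# S37 / INT-Q in the language of `Core/Geo.lean` (helper280)

* `intQ_evalSeries` : `f ∈ ℚ̄(X₀(N))` integral over `A[u]` (`u` any `A`-integral `q`-series of
  `ℚ̄(X₀(N))`, e.g. `u = j`, `j⁻¹`, `t₂`, `t₃`) is an `A`-integral `q`-series `y`, and `y`
  satisfies the same monic equation inside `A((q))`.
* `exists_intElt_isFin` / `exists_intElt_isInf` : the integral closure of `A[j]` (resp. `A[j⁻¹]`)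
  in `ℚ̄(X₀(N))` consists of `Core.IntElt`s with `IsFin` (resp. `IsInf`).  UNCONDITIONAL
  (`ℓ` prime, `ℓ ∤ N`, `A` over `ℓ`).
-/

set_option autoImplicit false
set_option linter.style.haveILetI false
set_option linter.unusedSectionVars false
set_option synthInstance.maxHeartbeats 400000

noncomputable section

namespace Fermat.Agent.S37.H280.IntQ

open ModularCurve HahnSeries IntermediateField Polynomial
open Fermat.Agent.S18.H602 Fermat.Agent.S37.Core

local notation "Q̄" => AlgebraicClosure ℚ

variable (A : ValuationSubring Q̄) (N : ℕ) [NeZero N]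

theorem coeffMap_C_mem (a : A) :
    coeffMap A.subtype (HahnSeries.C a : LaurentSeries A) ∈ modularFunctionFieldBar N := by
  have h : coeffMap A.subtype (HahnSeries.C a : LaurentSeries A)
      = algebraMap Q̄ (LaurentSeries Q̄) (a : Q̄) := by
    rw [algebraMap_laurentSeries_eq_single]
    change coeffMap A.subtype (HahnSeries.single 0 a) = _
    rw [coeffMap_single]
    rfl
  rw [h]
  exact (modularFunctionFieldBar N).algebraMap_mem _

/-- polynomials in `u` with coefficients in `A` stay in `ℚ̄(X₀(N))` -/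
theorem coeffMap_evalSeries_mem (u : LaurentSeries A)
    (hu : coeffMap A.subtype u ∈ modularFunctionFieldBar N) (P : Polynomial A) :
    coeffMap A.subtype (evalSeries A u P) ∈ modularFunctionFieldBar N := by
  induction P using Polynomial.induction_on' with
  | add P Q hP hQ =>
    rw [map_add, map_add]
    exact add_mem hP hQ
  | monomial n a =>
    have h : evalSeries A u (Polynomial.monomial n a) = HahnSeries.C a * u ^ n := by
      simp [evalSeries]
    rw [h, map_mul, map_pow]
    exact mul_mem (coeffMap_C_mem A N a) (pow_mem hu n)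

/-- **INT-Q, chart form.**  An element of `ℚ̄(X₀(N))` integral over `A[u]` is an `A`-integral
`q`-series, integral over `A[u]` inside `A((q))`. -/
theorem intQ_evalSeries {ℓ : ℕ} (hℓ : ℓ ≠ 0) (hA : A.LiesOverPrime ℓ)
    (u : LaurentSeries A) (hu : coeffMap A.subtype u ∈ modularFunctionFieldBar N)
    (f : LaurentSeries Q̄) (hf : f ∈ modularFunctionFieldBar N)
    (q : Polynomial (Polynomial A)) (hq : q.Monic)
    (hqf : q.eval₂ ((coeffMap A.subtype).comp (evalSeries A u)) f = 0) :
    ∃ y : LaurentSeries A, coeffMap A.subtype y = f ∧ q.eval₂ (evalSeries A u) y = 0 := by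
  obtain ⟨y, hy⟩ := intQ A hℓ hA N f hf (q.map (evalSeries A u)) (hq.map _)
    (fun i => by
      rw [Polynomial.coeff_map]
      exact coeffMap_evalSeries_mem A N u hu _)
    (by rw [Polynomial.eval₂_map]; exact hqf)
  refine ⟨y, hy, ?_⟩
  apply coeffMap_injective A.subtype Subtype.val_injective
  rw [map_zero, Polynomial.hom_eval₂, hy]
  exact hqf

/-- **INT-Q, finite chart**: an element of `ℚ̄(X₀(N))` integral over `A[j]` is (the generic
fibre of) a `Core.IntElt` with `IsFin`. -/
theorem exists_intElt_isFin {ℓ : ℕ} (hℓ : ℓ.Prime) (hℓN : ¬ ℓ ∣ N) (hA : A.LiesOverPrime ℓ)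
    (f : modularFunctionFieldBar N)
    (q : Polynomial (Polynomial A)) (hq : q.Monic)
    (hqf : q.eval₂ ((coeffMap A.subtype).comp (evalSeries A (jqModC A)))
      (f : LaurentSeries Q̄) = 0) :
    ∃ c : IntElt A N, c.gen = f ∧ c.IsFin := by
  have hj : coeffMap A.subtype (jqModC A) ∈ modularFunctionFieldBar N := by
    rw [coeffMap_jqModC, modularFunctionFieldBar_eq]
    exact jqModC_mem_full _ N
  obtain ⟨y, hy, hyq⟩ := intQ_evalSeries A N hℓ.ne_zero hA (jqModC A) hj f f.2 q hq hqf
  have hmem : coeffMap A.subtype y ∈ modularFunctionFieldBar N := hy ▸ f.2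
  refine ⟨⟨y, hmem, Fermat.Agent.S37.H448.reduction_mem_fullC N hℓ hℓN A hA y hmem⟩, ?_,
    ⟨q, hq, hyq⟩⟩
  exact Subtype.ext hy

/-- **INT-Q, chart at infinity**: an element of `ℚ̄(X₀(N))` integral over `A[j⁻¹]` is (the
generic fibre of) a `Core.IntElt` with `IsInf`. -/
theorem exists_intElt_isInf {ℓ : ℕ} (hℓ : ℓ.Prime) (hℓN : ¬ ℓ ∣ N) (hA : A.LiesOverPrime ℓ)
    (u : LaurentSeries A) (hu : u * jqModC A = 1)
    (f : modularFunctionFieldBar N)
    (q : Polynomial (Polynomial A)) (hq : q.Monic)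
    (hqf : q.eval₂ ((coeffMap A.subtype).comp (evalSeries A u)) (f : LaurentSeries Q̄) = 0) :
    ∃ c : IntElt A N, c.gen = f ∧ c.IsInf := by
  have hj : coeffMap A.subtype (jqModC A) ∈ modularFunctionFieldBar N := by
    rw [coeffMap_jqModC, modularFunctionFieldBar_eq]
    exact jqModC_mem_full _ N
  have hu' : coeffMap A.subtype u ∈ modularFunctionFieldBar N := by
    have h1 : coeffMap A.subtype u * coeffMap A.subtype (jqModC A) = 1 := by
      rw [← map_mul, hu, map_one]
    have h2 : coeffMap A.subtype u = (coeffMap A.subtype (jqModC A))⁻¹ :=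
      eq_inv_of_mul_eq_one_left h1
    rw [h2]
    exact inv_mem hj
  obtain ⟨y, hy, hyq⟩ := intQ_evalSeries A N hℓ.ne_zero hA u hu' f f.2 q hq hqf
  have hmem : coeffMap A.subtype y ∈ modularFunctionFieldBar N := hy ▸ f.2
  refine ⟨⟨y, hmem, Fermat.Agent.S37.H448.reduction_mem_fullC N hℓ hℓN A hA y hmem⟩, ?_,
    ⟨u, hu, q, hq, hyq⟩⟩
  exact Subtype.ext hy

end Fermat.Agent.S37.H280.IntQ
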