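import Fermat.Agent.S37.H508.RimCharts
import Fermat.Agent.S37.H700.QepJ
import Fermat.Agent.S37.H459.ChartRed
import Fermat.Agent.S18.H739.ModFinite
import Fermat.Agent.S24.FFDegree

/-!
# S37 / node_rim (helper280): the fields `ker_*`, `exists_red_*` of helper508's `RimSkel.lean`

Wiring, at the EXACT skeleton types:
* `ker_fin`, `ker_inf`  (QEP over `A`)  from helper700's `H700.chart_ker` / `chart_red_mem`;
* `exists_red_fin`, `exists_red_inf`    from helper459's `H459.exists_red_of_ker`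
  and `S18.H739.modFinite` (`j̄` transcendental, `F_k` finite over `k(j̄)`).
-/

set_option autoImplicit false
set_option linter.style.haveILetI false
set_option linter.unusedSectionVars false
set_option synthInstance.maxHeartbeats 400000
set_option maxHeartbeats 800000

noncomputable section

namespace Fermat.Agent.S37.H280.RimKer

open ModularCurve HahnSeries AlgebraicCurve Polynomial Fermat.Agent.S37.H518
open Fermat.Agent.S37.H508 Fermat.Agent.S24.H504 Fermat.Agent.S37.Core

variable (N : ℕ) [NeZero N] {ℓ : ℕ} (hℓ : ℓ.Prime) (hℓN : ¬ ℓ ∣ N)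
  (A : ValuationSubring (AlgebraicClosure ℚ)) (hA : A.LiesOverPrime ℓ)

local notation "πA" => IsLocalRing.residue A
local notation "kA" => IsLocalRing.ResidueField A
local notation "Fb" => modularFunctionFieldBar N
local notation "Fk" => modularFunctionFieldFullC kA N
local notation "ιA" => iotaF A πA N
local notation "ρA" => rhoF A πA N
local notation "Q̄" => AlgebraicClosure ℚ

include hℓ hℓN hA

/-- QEP (kernel form) on the chart of any coordinate series `x'`. -/
theorem ker_of_isCoord {x' : LaurentSeries A} (hx' : Fermat.Agent.S37.H700.IsCoord A x')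
    (b : IntFun A πA N) (hb : IntOverS x' (b : LaurentSeries A)) (h0 : ρA b = 0) :
    ∃ μ : A, πA μ = 0 ∧ ∃ b' : IntFun A πA N, IntOverS x' (b' : LaurentSeries A) ∧
      b = μ • b' := by
  have hy : Fermat.Agent.S37.H700.IsChartElt N A x' (b : LaurentSeries A) := ⟨b.2.1, hb⟩
  have hred : coeffMap πA (b : LaurentSeries A) = 0 := by
    have := congrArg Subtype.val h0
    rwa [coe_rhoF] at this
  obtain ⟨μ, y', hμ, hyy', hy', -⟩ := Fermat.Agent.S37.H700.chart_ker hℓ hℓN hA hx' hy hred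
  have hmemk := (Fermat.Agent.S37.H700.chart_red_mem hℓ hℓN hA hy').1
  refine ⟨μ, hμ, ⟨y', hy'.1, hmemk⟩, hy'.2, ?_⟩
  apply Subtype.ext
  rw [hyy']
  rfl

/-- [R-a] QEP on the finite chart. -/
theorem ker_fin (b : IntFun A πA N) (hb : b ∈ finChart A N) (h0 : ρA b = 0) :
    ∃ μ : A, πA μ = 0 ∧ ∃ b' ∈ finChart A N, b = μ • b' := by
  obtain ⟨μ, hμ, b', hb', h⟩ := ker_of_isCoord N hℓ hℓN A hA
    (Fermat.Agent.S37.H700.isCoord_j A) b hb h0
  exact ⟨μ, hμ, b', hb', h⟩

/-- [R-a] QEP on the chart at infinity. -/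
theorem ker_inf (b : IntFun A πA N) (hb : b ∈ infChart A N) (h0 : ρA b = 0) :
    ∃ μ : A, πA μ = 0 ∧ ∃ b' ∈ infChart A N, b = μ • b' := by
  obtain ⟨μ, hμ, b', hb', h⟩ := ker_of_isCoord N hℓ hℓN A hA
    (Fermat.Agent.S37.H700.isCoord_of_mul_eq_one A (jInvS_mul_jqModC A)) b hb h0
  exact ⟨μ, hμ, b', hb', h⟩

omit hℓN in
theorem natCast_ne_zero_of_dvd (p : ℕ) (hp : p.Prime) (hpN : p ∣ N) (hℓN : ¬ ℓ ∣ N) :
    ((p : ℕ) : kA) ≠ 0 := by
  haveI : CharP kA ℓ := Fermat.Agent.S37.H98.charP_residueField A ℓ hℓ hA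
  intro h
  have h1 : ℓ ∣ p := (CharP.cast_eq_zero_iff kA ℓ p).mp h
  have h2 : ℓ = p := (Nat.prime_dvd_prime_iff_eq hℓ hp).mp h1
  exact hℓN (h2 ▸ hpN)

omit hℓ hℓN hA in
theorem rho_jInt_eq :
    ρA (jInt A N) = (⟨jqModC kA, jqModC_mem_full kA N⟩ : Fk) := by
  apply Subtype.ext
  rw [coe_rhoF, coe_jInt, coeffMap_jqModC]

omit hℓ hℓN hA in
theorem rho_jInvInt_eq :
    ρA (jInvInt A N) = (⟨jqModC kA, jqModC_mem_full kA N⟩ : Fk)⁻¹ := by
  apply eq_inv_of_mul_eq_one_left
  rw [← rho_jInt_eq, ← map_mul, mul_comm, jInt_mul_jInvInt, map_one]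

omit hℓ hℓN hA in
theorem transcendental_rho_jInt : Transcendental kA (ρA (jInt A N)) := by
  rw [rho_jInt_eq]
  exact Fermat.Agent.S18.H739.transcendental_jC kA N

omit hℓ hℓN hA in
theorem transcendental_rho_jInvInt : Transcendental kA (ρA (jInvInt A N)) := by
  rw [rho_jInvInt_eq]
  exact Fermat.Agent.S24.FF.transcendental_inv (Fermat.Agent.S18.H739.transcendental_jC kA N)

theorem finiteDimensional_rho_jInt :
    FiniteDimensional (IntermediateField.adjoin kA {ρA (jInt A N)}) Fk := by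
  rw [rho_jInt_eq]
  exact Fermat.Agent.S18.H739.finiteDimensional_adjoin_jC kA N
    (fun p hp hpN => natCast_ne_zero_of_dvd N hℓ A hA p hp hpN hℓN)

theorem finiteDimensional_rho_jInvInt :
    FiniteDimensional (IntermediateField.adjoin kA {ρA (jInvInt A N)}) Fk := by
  rw [rho_jInvInt_eq]
  haveI := Fermat.Agent.S18.H739.finiteDimensional_adjoin_jC kA N
    (fun p hp hpN => natCast_ne_zero_of_dvd N hℓ A hA p hp hpN hℓN)
  exact Fermat.Agent.S24.FF.finiteDimensional_adjoin_inv _

/-- [R-c] existence of the reduction of a point of the finite chart. -/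
theorem exists_red_fin (P : Place (AlgebraicClosure ℚ) Fb) (hP : PC ιA (finChart A N) P) :
    ∃ Q : Place kA Fk, QC ρA (finChart A N) Q ∧ RedTo πA ιA ρA (finChart A N) P Q :=
  Fermat.Agent.S37.H459.exists_red_of_ker
    (redStr_intFun A πA N IsLocalRing.residue_surjective)
    (ker_fin N hℓ hℓN A hA) (jInt_mem_finChart A N) (transcendental_rho_jInt N A)
    (finiteDimensional_rho_jInt N hℓ hℓN A hA) P hP

/-- [R-c] existence of the reduction of a point of the chart at infinity. -/
theorem exists_red_inf (P : Place (AlgebraicClosure ℚ) Fb) (hP : PC ιA (infChart A N) P) :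
    ∃ Q : Place kA Fk, QC ρA (infChart A N) Q ∧ RedTo πA ιA ρA (infChart A N) P Q :=
  Fermat.Agent.S37.H459.exists_red_of_ker
    (redStr_intFun A πA N IsLocalRing.residue_surjective)
    (ker_inf N hℓ hℓN A hA) (jInvInt_mem_infChart A N) (transcendental_rho_jInvInt N A)
    (finiteDimensional_rho_jInvInt N hℓ hℓN A hA) P hP

end Fermat.Agent.S37.H280.RimKer
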