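import Fermat.Agent.S37.H508.RimCharts
import Fermat.Agent.S37.H459.ChartGen
import Fermat.Agent.S37.H280.IntQGeo
import Fermat.Agent.S18.H84.ConstF
import Fermat.Agent.S28.H806.Transcend

/-!
# S37 / node_rim (helper280): the SCALING hypothesis and the fields `P_unif`, `P_sep`

For the two modular charts of `H508/RimCharts.lean` (`finChart A N`, `infChart A N`) we prove the
scaling hypothesis `hSC` of `H459.P_unif_of_scaling` / `H459.P_sep_of_scaling`:

  every `f ∈ ℚ̄(X₀(N))` integral over `ℚ̄[j]` (resp. `ℚ̄[j⁻¹]`) has a nonzero constant multiple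
  `c f` in the chart algebra,

from INT-Q (`H280.IntQ`) by clearing denominators.  Consequently the four fields
`P_unif_fin`, `P_sep_fin`, `P_unif_inf`, `P_sep_inf` of helper508's `RimSkel.lean` hold, at the
exact skeleton types.
-/

set_option autoImplicit false
set_option linter.style.haveILetI false

noncomputable section

namespace Fermat.Agent.S37.H280.RimScale

open ModularCurve HahnSeries AlgebraicCurve Polynomial Fermat.Agent.S37.H518
open Fermat.Agent.S37.H508 Fermat.Agent.S24.H504 Fermat.Agent.S37.Core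

section Clear

attribute [local instance] Polynomial.algebra

variable {L : Type*} [Field L] (A : ValuationSubring L)

/-- clearing denominators: integral over `L[x]` implies a nonzero `A`-multiple is integral over
`A[x]`. -/
theorem exists_isIntegralElem_mul {S : Type*} [CommRing S] [Algebra L S] (x f : S)
    (hf : ((Polynomial.aeval x : L[X] →ₐ[L] S) : L[X] →+* S).IsIntegralElem f) :
    ∃ c : A, c ≠ 0 ∧
      (((Polynomial.aeval x : L[X] →ₐ[L] S) : L[X] →+* S).comp
        (Polynomial.mapRingHom A.subtype)).IsIntegralElem (algebraMap L S (c : L) * f) := by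
  letI : Algebra L[X] S := ((Polynomial.aeval x : L[X] →ₐ[L] S) : L[X] →+* S).toAlgebra
  letI : Algebra A[X] S := (((Polynomial.aeval x : L[X] →ₐ[L] S) : L[X] →+* S).comp
        (Polynomial.mapRingHom A.subtype)).toAlgebra
  haveI : IsScalarTower A[X] L[X] S := IsScalarTower.of_algebraMap_eq (fun _ => rfl)
  haveI : IsLocalization ((nonZeroDivisors A).map (C : A →+* A[X])) L[X] :=
    Polynomial.isLocalization (nonZeroDivisors A) L
  obtain ⟨m, hm⟩ := IsIntegral.exists_multiple_integral_of_isLocalization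
    ((nonZeroDivisors A).map (C : A →+* A[X])) (Rₘ := L[X]) f hf
  obtain ⟨c, hc, hcm⟩ := m.2
  refine ⟨c, nonZeroDivisors.ne_zero hc, ?_⟩
  have h1 : m • f = algebraMap L S (c : L) * f := by
    rw [Submonoid.smul_def, Algebra.smul_def, ← hcm]
    congr 1
    change (Polynomial.aeval x) (Polynomial.map A.subtype (C c)) = _
    rw [Polynomial.map_C, Polynomial.aeval_C]
    rfl
  rw [← h1]
  exact hm

/-- integral over the subalgebra `L[x]` implies integral along `aeval x`. -/
theorem isIntegralElem_aeval_of_isIntegral_adjoin {S : Type*} [CommRing S] [Algebra L S]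
    (x f : S) (hf : IsIntegral (Algebra.adjoin L {x}) f) :
    ((Polynomial.aeval x : L[X] →ₐ[L] S) : L[X] →+* S).IsIntegralElem f := by
  obtain ⟨p, hp, hpf⟩ := hf
  have hlift : p.map (algebraMap (Algebra.adjoin L {x}) S) ∈
      Polynomial.lifts ((Polynomial.aeval x : L[X] →ₐ[L] S) : L[X] →+* S) := by
    rw [Polynomial.lifts_iff_coeff_lifts]
    intro n
    rw [Polynomial.coeff_map]
    have h : ((p.coeff n : Algebra.adjoin L {x}) : S) ∈ (Polynomial.aeval x : L[X] →ₐ[L] S).range := by
      rw [← Algebra.adjoin_singleton_eq_range_aeval]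
      exact (p.coeff n).2
    obtain ⟨r, hr⟩ := h
    exact ⟨r, hr⟩
  obtain ⟨q, hq, -, hqm⟩ := Polynomial.lifts_and_natDegree_eq_and_monic hlift (hp.map _)
  refine ⟨q, hqm, ?_⟩
  rw [← Polynomial.eval_map, hq, Polynomial.eval_map]
  exact hpf

end Clear

variable (N : ℕ) [NeZero N] {ℓ : ℕ} (hℓ : ℓ.Prime) (hℓN : ¬ ℓ ∣ N)
  (A : ValuationSubring (AlgebraicClosure ℚ)) (hA : A.LiesOverPrime ℓ)

local notation "πA" => IsLocalRing.residue A
local notation "kA" => IsLocalRing.ResidueField A
local notation "Fb" => modularFunctionFieldBar N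
local notation "Fk" => modularFunctionFieldFullC kA N
local notation "ιA" => iotaF A πA N
local notation "ρA" => rhoF A πA N
local notation "Q̄" => AlgebraicClosure ℚ

omit [NeZero N] in
/-- the comparison of the two evaluation maps `A[X] → ℚ̄((q))` -/
theorem subtype_comp_aeval_eq (x : IntFun A πA N) :
    ((modularFunctionFieldBar N).val : Fb →+* LaurentSeries Q̄).comp
        ((((Polynomial.aeval (ιA x) : Q̄[X] →ₐ[Q̄] Fb) : Q̄[X] →+* Fb)).comp
          (Polynomial.mapRingHom A.subtype))
      = (coeffMap A.subtype).comp (evalSeries A (x : LaurentSeries A)) := by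
  apply Polynomial.ringHom_ext
  · intro a
    simp only [RingHom.comp_apply, Polynomial.coe_mapRingHom, Polynomial.map_C, evalSeries,
      Polynomial.coe_eval₂RingHom, Polynomial.eval₂_C]
    change ((Polynomial.aeval (ιA x) (C (A.subtype a)) : Fb) : LaurentSeries Q̄) = _
    rw [Polynomial.aeval_C, coeffMap_subtype_C]
    rfl
  · simp only [RingHom.comp_apply, Polynomial.coe_mapRingHom, Polynomial.map_X, evalSeries,
      Polynomial.coe_eval₂RingHom, Polynomial.eval₂_X]
    change ((Polynomial.aeval (ιA x) (X : Q̄[X]) : Fb) : LaurentSeries Q̄) = _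
    rw [Polynomial.aeval_X]
    rfl

omit [NeZero N] in
/-- **core of the scaling hypothesis**: integral over `ℚ̄[ι x]` implies a nonzero `A`-multiple
is a root of a monic polynomial over `A[x]`, in `q`-expansion form. -/
theorem exists_monic_eval₂_eq_zero (x : IntFun A πA N) (f : Fb)
    (hf : IsIntegral (Algebra.adjoin Q̄ {ιA x}) f) :
    ∃ c : A, c ≠ 0 ∧ ∃ q : Polynomial (Polynomial A), q.Monic ∧
      q.eval₂ ((coeffMap A.subtype).comp (evalSeries A (x : LaurentSeries A)))
        (((algebraMap Q̄ Fb (c : Q̄) * f : Fb)) : LaurentSeries Q̄) = 0 := by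
  have h1 := isIntegralElem_aeval_of_isIntegral_adjoin (ιA x) f hf
  obtain ⟨c, hc, q, hq, hqf⟩ := exists_isIntegralElem_mul A (ιA x) f h1
  refine ⟨c, hc, q, hq, ?_⟩
  rw [← subtype_comp_aeval_eq N A x]
  have h2 := congrArg ((modularFunctionFieldBar N).val : Fb →+* LaurentSeries Q̄) hqf
  rw [Polynomial.hom_eval₂, map_zero] at h2
  exact h2

omit [NeZero N] in
theorem coe_algebraMap_bar (c : Q̄) :
    ((algebraMap Q̄ Fb c : Fb) : LaurentSeries Q̄) = HahnSeries.C c := by
  change algebraMap Q̄ (LaurentSeries Q̄) c = _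
  rw [algebraMap_laurentSeries_eq_single]
  rfl

omit [NeZero N] in
theorem iota_jInt_not_mem_range :
    ιA (jInt A N) ∉ (algebraMap Q̄ Fb).range := by
  rintro ⟨c, hc⟩
  have h := congrArg (fun z : Fb => ((z : LaurentSeries Q̄)).order) hc
  simp only [coe_algebraMap_bar, coe_iotaF, coe_jInt, coeffMap_jqModC] at h
  rw [HahnSeries.order_C] at h
  exact Fermat.Agent.S28.H806.jqModC_order_ne_zero Q̄ h.symm

omit [NeZero N] in
theorem iota_jInvInt_not_mem_range :
    ιA (jInvInt A N) ∉ (algebraMap Q̄ Fb).range := by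
  rintro ⟨c, hc⟩
  have h := congrArg (fun z : Fb => ((z : LaurentSeries Q̄)).order) hc
  simp only [coe_algebraMap_bar, coe_iotaF, coe_jInvInt, coeffMap_jInvS, jInvS_eq_inv] at h
  rw [HahnSeries.order_C] at h
  exact Fermat.Agent.S28.H806.jqModC_inv_order_ne_zero Q̄ h.symm

theorem transcendental_iota_jInt : Transcendental Q̄ (ιA (jInt A N)) :=
  (Fermat.Agent.S18.H84.finiteDimensional_adjoin_modularFunctionFieldBar N _
    (iota_jInt_not_mem_range N A)).1

theorem finiteDimensional_iota_jInt :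
    FiniteDimensional (IntermediateField.adjoin Q̄ {ιA (jInt A N)}) Fb :=
  (Fermat.Agent.S18.H84.finiteDimensional_adjoin_modularFunctionFieldBar N _
    (iota_jInt_not_mem_range N A)).2

theorem transcendental_iota_jInvInt : Transcendental Q̄ (ιA (jInvInt A N)) :=
  (Fermat.Agent.S18.H84.finiteDimensional_adjoin_modularFunctionFieldBar N _
    (iota_jInvInt_not_mem_range N A)).1

theorem finiteDimensional_iota_jInvInt :
    FiniteDimensional (IntermediateField.adjoin Q̄ {ιA (jInvInt A N)}) Fb :=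
  (Fermat.Agent.S18.H84.finiteDimensional_adjoin_modularFunctionFieldBar N _
    (iota_jInvInt_not_mem_range N A)).2

include hℓ hℓN hA

/-- **scaling hypothesis for the finite chart** -/
theorem scaling_fin (f : Fb) (hf : IsIntegral (Algebra.adjoin Q̄ {ιA (jInt A N)}) f) :
    ∃ c : Q̄, c ≠ 0 ∧ ∃ b ∈ finChart A N, ιA b = algebraMap Q̄ Fb c * f := by
  obtain ⟨c, hc, q, hq, hqf⟩ := exists_monic_eval₂_eq_zero N A (jInt A N) f hf
  obtain ⟨e, he, p, hp, hpe⟩ := Fermat.Agent.S37.H280.IntQ.exists_intElt_isFin A N hℓ hℓN hA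
    (algebraMap Q̄ Fb (c : Q̄) * f) q hq hqf
  refine ⟨(c : Q̄), fun h => hc (Subtype.ext h), ⟨e.y, e.mem, e.memk⟩, ⟨p, hp, hpe⟩, ?_⟩
  rw [← he]
  rfl

/-- **scaling hypothesis for the chart at infinity** -/
theorem scaling_inf (f : Fb) (hf : IsIntegral (Algebra.adjoin Q̄ {ιA (jInvInt A N)}) f) :
    ∃ c : Q̄, c ≠ 0 ∧ ∃ b ∈ infChart A N, ιA b = algebraMap Q̄ Fb c * f := by
  obtain ⟨c, hc, q, hq, hqf⟩ := exists_monic_eval₂_eq_zero N A (jInvInt A N) f hf
  obtain ⟨e, he, u, hu, p, hp, hpe⟩ :=
    Fermat.Agent.S37.H280.IntQ.exists_intElt_isInf A N hℓ hℓN hA (jInvS A) (jInvS_mul_jqModC A)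
      (algebraMap Q̄ Fb (c : Q̄) * f) q hq hqf
  refine ⟨(c : Q̄), fun h => hc (Subtype.ext h), ⟨e.y, e.mem, e.memk⟩, ?_, ?_⟩
  · rw [mem_infChart]
    exact ⟨u, hu, p, hp, hpe⟩
  · rw [← he]
    rfl

/-! ### the fields of `RimSkel.lean` (exact skeleton types) -/

/-- [R-c] local uniformisers on the finite chart. -/
theorem P_unif_fin (P : Place (AlgebraicClosure ℚ) Fb) (hP : PC ιA (finChart A N) P) :
    ∃ w ∈ finChart A N, P.ord (ιA w) = 1 :=
  Fermat.Agent.S37.H459.P_unif_of_scaling (jInt_mem_finChart A N)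
    (transcendental_iota_jInt N A) (finiteDimensional_iota_jInt N A)
    (scaling_fin N hℓ hℓN A hA) P hP

/-- [R-c] the finite chart separates places. -/
theorem P_sep_fin (P P' : Place (AlgebraicClosure ℚ) Fb) (hP : PC ιA (finChart A N) P)
    (hP' : PC ιA (finChart A N) P') (hne : P ≠ P') :
    ∃ s ∈ finChart A N, ¬ InMax P (ιA s) ∧ InMax P' (ιA s) :=
  Fermat.Agent.S37.H459.P_sep_of_scaling (jInt_mem_finChart A N)
    (transcendental_iota_jInt N A) (finiteDimensional_iota_jInt N A)
    (scaling_fin N hℓ hℓN A hA) P P' hP hP' hne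

/-- [R-c] local uniformisers on the chart at infinity. -/
theorem P_unif_inf (P : Place (AlgebraicClosure ℚ) Fb) (hP : PC ιA (infChart A N) P) :
    ∃ w ∈ infChart A N, P.ord (ιA w) = 1 :=
  Fermat.Agent.S37.H459.P_unif_of_scaling (jInvInt_mem_infChart A N)
    (transcendental_iota_jInvInt N A) (finiteDimensional_iota_jInvInt N A)
    (scaling_inf N hℓ hℓN A hA) P hP

/-- [R-c] the chart at infinity separates places. -/
theorem P_sep_inf (P P' : Place (AlgebraicClosure ℚ) Fb) (hP : PC ιA (infChart A N) P)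
    (hP' : PC ιA (infChart A N) P') (hne : P ≠ P') :
    ∃ s ∈ infChart A N, ¬ InMax P (ιA s) ∧ InMax P' (ιA s) :=
  Fermat.Agent.S37.H459.P_sep_of_scaling (jInvInt_mem_infChart A N)
    (transcendental_iota_jInvInt N A) (finiteDimensional_iota_jInvInt N A)
    (scaling_inf N hℓ hℓN A hA) P P' hP hP' hne

end Fermat.Agent.S37.H280.RimScale
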